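import Fermat.Agent.HasseNorm.Local

/-!
# The norm theorem

For a cyclic extension and a large set `T` of primes the local classes modulo the units outside `T`
number at most the degree, by the second inequality, and at least, by the first.  With equality
every unit outside `T` that is a local norm everywhere is a norm of units and every local index is
the order of the decomposition group.
-/

set_option autoImplicit false
set_option linter.unusedSectionVars false
set_option linter.style.haveILetI false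

noncomputable section

open NumberField NumberField.InfinitePlace IsDedekindDomain Finset WithZero
open FA.Hecke (IsRayElt coprimeIdeals rayCon RayClassGroup rayClass finite_rayClassGroup)
open scoped Pointwise nonZeroDivisors Classical

namespace FA.HasseCyclic

open FA.ArtinRec

variable {K L : Type*} [Field K] [NumberField K] [Field L] [NumberField L] [Algebra K L]
  [IsGalois K L]

theorem mul_primePow_dvd {T : Finset (HeightOneSpectrum (𝓞 K))} (k : {v // v ∈ T} → ℕ)
    (u : {v // v ∈ T}) :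
    u.1.asIdeal ^ (k u + 1) ∣ ∏ v : {v // v ∈ T}, v.1.asIdeal ^ (k v + 1) :=
  Finset.dvd_prod_of_mem (fun v : {v // v ∈ T} => v.1.asIdeal ^ (k v + 1)) (Finset.mem_univ u)

/-- **The local classes number at most the degree.** -/
theorem card_locClasses_le (T : Finset (HeightOneSpectrum (𝓞 K))) (hcl : IsClassSet T)
    (hclL : IsClassSet (primesAbove L T))
    (N : InfinitePlace K ⊕ {v // v ∈ T} → Subgroup Kˣ) [∀ i, Finite (Kˣ ⧸ N i)]
    (hnorm : ∀ i, ∀ x : Lˣ, normU' x ∈ N i)
    (hinf : ∀ v : InfinitePlace K, ∀ a : Kˣ,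
      (∀ h : IsReal v, 0 < embedding_of_isReal h (a : K)) → a ∈ N (Sum.inl v))
    (k : {v // v ∈ T} → ℕ) (hfin : ∀ v : {v // v ∈ T}, nearOne v.1 (k v) ≤ N (Sum.inr v)) :
    Nat.card (LocClasses T N) ≤ Module.finrank K L := by
  have hsurj : Function.Surjective (diag T N) :=
    diag_surjective T N (fun v => k v + 1) hinf fun v a ha => hfin v ha
  set 𝔪 : Ideal (𝓞 K) := ∏ v : {v // v ∈ T}, v.1.asIdeal ^ (k v + 1) with h𝔪def
  have h𝔪 : 𝔪 ≠ ⊥ := Finset.prod_ne_zero_iff.2 fun v _ => pow_ne_zero _ v.1.ne_bot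
  have hdvd : ∀ v : HeightOneSpectrum (𝓞 K), v.asIdeal ∣ 𝔪 → v ∈ T := fun v hv => by
    obtain ⟨u, -, hd⟩ := v.prime.exists_mem_finset_dvd hv
    rw [show v = u.1 from HeightOneSpectrum.ext
      ((prime_dvd_prime_iff_eq v.prime u.1.prime).1 (v.prime.dvd_of_dvd_pow hd))]
    exact u.2
  let Φ : coprimeIdeals 𝔪 →* LocClasses T N :=
    MonoidHom.mk' (fun I => idealClass N hcl I.1.1) fun I J =>
      idealClass_mul N hcl (nonZeroDivisors.coe_ne_zero I.1) (nonZeroDivisors.coe_ne_zero J.1)
  have hray : ∀ x : 𝓞 K, IsRayElt 𝔪 x → idealClass N hcl (Ideal.span {x}) = 1 := by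
    rintro x ⟨hx0, hx1, hxp⟩
    refine idealClass_eq_one N hcl (by simpa using hx0) (a := intU x hx0)
      (fun w _ => ord_intU_eq_ordI w hx0) (fun v => hinf v _ fun h => hxp _) fun v => ?_
    have hmem : x - 1 ∈ v.1.asIdeal ^ (k v + 1) :=
      Ideal.le_of_dvd (mul_primePow_dvd k v) hx1
    have hle := (v.1.intValuation_le_pow_iff_mem _ _).2 hmem
    rw [← v.1.valuation_of_algebraMap (K := K)] at hle
    replace hle : v.1.valuation K (algebraMap (𝓞 K) K (x - 1)) ≤ exp (-((k v + 1 : ℕ) : ℤ)) :=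
      hle
    rw [map_sub, map_one] at hle
    have hn : intU x hx0 ∈ nearOne v.1 (k v) := hle
    have h0 := ord_eq_zero_of_nearOne hn
    rw [ord_intU_eq_ordI, Nat.cast_eq_zero] at h0
    rw [h0, pow_zero, one_div]
    exact inv_mem (hfin v hn)
  have hker : rayCon 𝔪 ≤ Con.ker Φ := by
    rintro I J ⟨x, y, hx, hy, hxy⟩
    show idealClass N hcl I.1.1 = idealClass N hcl J.1.1
    have h := congrArg (idealClass N hcl) hxy
    rwa [idealClass_mul N hcl (by simpa using hx.1) (nonZeroDivisors.coe_ne_zero I.1),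
      idealClass_mul N hcl (by simpa using hy.1) (nonZeroDivisors.coe_ne_zero J.1),
      hray x hx, hray y hy, one_mul, one_mul] at h
  let Ψ : RayClassGroup 𝔪 →* LocClasses T N :=
    ((rayCon 𝔪).lift Φ hker).comp (Units.coeHom _)
  have hΨ : ∀ I, Ψ (rayClass h𝔪 I) = Φ I := fun I => by
    show (rayCon 𝔪).lift Φ hker ((rayClass h𝔪 I : (rayCon 𝔪).Quotient)) = _
    rw [rayClass, IsUnit.coe_liftRight]
    exact Con.lift_mk' _ _
  have hΨsurj : Function.Surjective Ψ := fun γ => by
    obtain ⟨I, hI, hIm, rfl⟩ := exists_idealClass_eq N hcl hsurj (𝔪 := 𝔪) hdvd γ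
    exact ⟨_, hΨ ⟨⟨I, mem_nonZeroDivisors_iff_ne_zero.mpr hI⟩, hIm⟩⟩
  have hle : normClasses L h𝔪 ≤ Ψ.ker := by
    rw [normClasses, Subgroup.closure_le]
    rintro _ ⟨Q, hQ, rfl⟩
    rw [SetLike.mem_coe, MonoidHom.mem_ker, hΨ]
    show idealClass N hcl (Ideal.relNorm (𝓞 K) Q.asIdeal) = 1
    obtain ⟨x, hx⟩ := hclL Q
    have hrel := relNorm_prime (K := K) Q
    set v := belowP K Q with hv
    have hvT : v ∉ T := fun hm => by
      have h1 : Ideal.relNorm (𝓞 K) Q.asIdeal ⊔ 𝔪 = ⊤ := hQ
      rw [hrel] at h1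
      exact v.isPrime.ne_top (top_le_iff.1 (h1 ▸ sup_le (Ideal.pow_le_self (fDeg_ne_zero v))
        (Ideal.le_of_dvd ((dvd_pow_self v.asIdeal (k ⟨v, hm⟩).succ_ne_zero).trans
          (mul_primePow_dvd k ⟨v, hm⟩)))))
    refine idealClass_eq_one N hcl (relNorm_ne_bot Q.ne_bot) (a := normU' x) (fun w hw => ?_)
      (fun u => hnorm _ x) fun u => ?_
    · rw [ord_normU', ordI_relNorm w Q.ne_bot]
      push_cast
      congr 1
      refine Finset.sum_congr rfl fun Q' hQ' => ?_
      rw [hx Q' (by rwa [mem_primesAbove, (finite_belowP (L := L) w).mem_toFinset.1 hQ']),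
        ordI_prime]
      split_ifs <;> rfl
    · rw [hrel, ordI_pow _ v.ne_bot, ordI_prime, if_neg fun h => hvT (by rw [← h]; exact u.2),
        mul_zero, pow_zero]
      exact div_mem (one_mem _) (hnorm _ x)
  haveI : Finite (RayClassGroup 𝔪) := finite_rayClassGroup h𝔪
  have hcard : Nat.card (LocClasses T N) = Ψ.ker.index := by
    rw [Subgroup.index_ker, MonoidHom.range_eq_top.2 hΨsurj,
      Nat.card_congr Subgroup.topEquiv.toEquiv]
  rw [hcard]
  exact (Nat.le_of_dvd (Nat.pos_of_ne_zero Subgroup.index_ne_zero_of_finite)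
    (Subgroup.index_dvd_of_le hle)).trans (normClasses_index_le h𝔪)

variable {σ : L ≃ₐ[K] L} (hσ : ∀ g, g ∈ Subgroup.zpowers σ)
include hσ

theorem finIdx_le_index_locNorms (v : HeightOneSpectrum (𝓞 K)) :
    finIdx L v ≤ (locNorms L v).index := by
  obtain ⟨NP, h0, hle, hn, k, hk⟩ := exists_localNorm v hσ
  refine hle.trans (Nat.le_of_dvd (Nat.pos_of_ne_zero (locNorms_index_ne_zero v))
    (Subgroup.index_dvd_of_le ((iInf_le _ k).trans (sup_le ?_ fun a ha => hk a ?_))))
  · rintro _ ⟨x, rfl⟩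
    exact hn x
  · exact (mem_nearOne.1 ha).trans (exp_le_exp.2 (by omega))

/-- **Equality in the count.** -/
theorem norm_theorem_aux (T : Finset (HeightOneSpectrum (𝓞 K))) (hcl : IsClassSet T)
    (hclL : IsClassSet (primesAbove L T)) (hram : ∀ v, IsRam L v → v ∈ T) :
    (∀ v ∈ T, (locNorms L v).index = finIdx L v) ∧
    ∀ a ∈ tUnit T, (∀ v ∈ T, a ∈ locNorms L v) →
      (∀ w : InfinitePlace K, ¬ w.IsUnramifiedIn L →
        ∀ h : IsReal w, 0 < embedding_of_isReal h (a : K)) →
      ∃ x : Lˣ, normU' x = a := by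
  choose k hk using exists_nearOne_le_locNorms (K := K) (L := L)
  choose NI hI0 hI1 hI2 hI3 using exists_infSub hσ
  let N : InfinitePlace K ⊕ {v // v ∈ T} → Subgroup Kˣ :=
    Sum.elim NI fun v => locNorms L v.1
  have hN0 : ∀ i, (N i).index ≠ 0 := by
    rintro (v | v)
    exacts [hI0 v, locNorms_index_ne_zero v.1]
  have hle : ∀ i, Sum.elim (infIdx L) (fun v : {v // v ∈ T} => finIdx L v.1) i ≤ (N i).index := by
    rintro (v | v)
    exacts [hI1 v, finIdx_le_index_locNorms hσ v.1]
  have hnorm : ∀ i, ∀ x : Lˣ, normU' x ∈ N i := by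
    rintro (v | v) x
    exacts [hI2 v x, normU'_mem_locNorms v.1 x]
  haveI : ∀ i, Finite (Kˣ ⧸ N i) := fun i =>
    haveI : (N i).FiniteIndex := ⟨hN0 i⟩
    Subgroup.finite_quotient_of_finiteIndex
  have hC : Nat.card (LocClasses T N) = Module.finrank K L :=
    le_antisymm (card_locClasses_le T hcl hclL N hnorm
      (fun v a ha => hI3 v a fun h _ => ha h) (fun v => k v.1) fun v => hk v.1)
      (card_locClasses hσ T hcl hram N hle hnorm)
  set U := tUnit T
  set NU := (tUnit (primesAbove L T)).map (normU' (K := K) (L := L))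
  set H := hFix (galU σ) (Module.finrank K L) (tUnit (primesAbove L T)) with hHdef
  have hH : H * Module.finrank K L = ∏ i : InfinitePlace K ⊕ {v // v ∈ T}, Sum.elim (infIdx L) (fun v : {v // v ∈ T} => finIdx L v.1) i := by
    rw [hFix_tUnit hσ T hcl hram, Fintype.prod_sum_type, ← Finset.prod_coe_sort T]
    rfl
  have hA : Nat.card (LocProd T N) = ∏ i, (N i).index :=
    Nat.card_pi (β := fun i => Kˣ ⧸ N i)
  have hmul : Nat.card (LocProd T N) = Nat.card (LocClasses T N) * Nat.card (U.map (diag T N)) :=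
    Subgroup.card_eq_card_quotient_mul_card_subgroup _
  have hrel : NU.relIndex U = H := relIndex_norm_tUnit hσ T
  have hker : NU ≤ (diag T N).ker := by
    rintro _ ⟨x, -, rfl⟩
    exact LocProd.ext fun i => (QuotientGroup.eq_one_iff _).2 (hnorm i x)
  have hNU : NU ≤ (diag T N).ker ⊓ U := le_inf hker (by
    rintro _ ⟨x, hx, rfl⟩ v hv
    rw [ord_normU', Finset.sum_eq_zero fun Q hQ => hx Q (by
      rwa [mem_primesAbove, (finite_belowP (L := L) v).mem_toFinset.1 hQ]), mul_zero])
  have hsplit : NU.relIndex ((diag T N).ker ⊓ U) * Nat.card (U.map (diag T N)) = H := by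
    rw [← hrel, ← Subgroup.relIndex_ker, ← Subgroup.inf_relIndex_right (diag T N).ker U,
      Subgroup.relIndex_mul_relIndex _ _ _ hNU inf_le_right]
  have hpos : 0 < H := by
    refine Nat.pos_of_ne_zero fun h => ?_
    rw [h, zero_mul, eq_comm, Finset.prod_eq_zero_iff] at hH
    obtain ⟨v | v, -, hv⟩ := hH
    · have h1 := infIdx_mul_card (L := L) hσ v
      rw [show infIdx L v = 0 from hv, zero_mul] at h1
      exact Module.finrank_pos.ne h1
    · have h1 := finIdx_mul_card (L := L) hσ v.1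
      rw [show finIdx L v.1 = 0 from hv, zero_mul] at h1
      exact Module.finrank_pos.ne h1
  have hD : 0 < Nat.card (U.map (diag T N)) := by
    haveI := instFiniteLocProd T N
    exact Nat.card_pos
  rw [hC, mul_comm] at hmul
  have hge : H * Module.finrank K L ≤ Nat.card (U.map (diag T N)) * Module.finrank K L := by
    rw [← hmul, hA, hH]
    exact Finset.prod_le_prod (fun _ _ => Nat.zero_le _) fun i _ => hle i
  have hHD : H ≤ Nat.card (U.map (diag T N)) := Nat.le_of_mul_le_mul_right hge Module.finrank_pos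
  have hHeq : H = Nat.card (U.map (diag T N)) :=
    le_antisymm hHD (Nat.le_of_dvd hpos ⟨_, (mul_comm _ _).trans hsplit |>.symm⟩)
  have hprod : ∏ i : InfinitePlace K ⊕ {v // v ∈ T}, Sum.elim (infIdx L) (fun v : {v // v ∈ T} => finIdx L v.1) i = ∏ i, (N i).index := by
    rw [← hH, ← hA, hmul, hHeq]
  refine ⟨fun v hv => ?_, fun a ha hloc hinf => ?_⟩
  · refine le_antisymm ?_ (finIdx_le_index_locNorms hσ v)
    by_contra! hlt
    refine (Finset.prod_lt_prod (fun i _ => ?_) (fun i _ => hle i)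
      ⟨Sum.inr ⟨v, hv⟩, Finset.mem_univ _, hlt⟩).ne hprod
    refine Nat.pos_of_ne_zero fun h0 => hpos.ne' ?_
    have : H * Module.finrank K L = 0 := by
      rw [hH]; exact Finset.prod_eq_zero (Finset.mem_univ i) h0
    exact (mul_eq_zero.1 this).resolve_right Module.finrank_pos.ne'
  · have h1 : NU.relIndex ((diag T N).ker ⊓ U) = 1 := by
      rw [← hHeq] at hsplit
      exact Nat.eq_of_mul_eq_mul_right hpos (by rw [one_mul]; exact hsplit)
    have hmem : a ∈ (diag T N).ker ⊓ U := ⟨LocProd.ext fun i => (QuotientGroup.eq_one_iff _).2 (by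
      rcases i with w | v
      exacts [hI3 w a fun h hw => hinf w hw h, hloc v.1 v.2]), ha⟩
    obtain ⟨x, -, hx⟩ := Subgroup.relIndex_eq_one.1 h1 hmem
    exact ⟨x, hx⟩

omit hσ in
/-- A set of primes that is good for the count. -/
theorem exists_good_set (T₀ : Finset (HeightOneSpectrum (𝓞 K))) :
    ∃ T : Finset (HeightOneSpectrum (𝓞 K)), T₀ ⊆ T ∧ IsClassSet T ∧
      IsClassSet (primesAbove L T) ∧ ∀ v, IsRam L v → v ∈ T := by
  obtain ⟨TK, hTK⟩ := exists_isClassSet (K := K)
  obtain ⟨TL, hTL⟩ := exists_isClassSet (K := L)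
  set T := T₀ ∪ (finite_isRam K L).toFinset ∪ TK ∪ TL.image (belowP K) with hT
  exact ⟨T, fun v hv => by simp [hT, hv], hTK.mono fun v hv => by simp [hT, hv],
    hTL.mono fun Q hQ => by
      rw [mem_primesAbove, hT]
      exact Finset.mem_union_right _ (Finset.mem_image_of_mem _ hQ),
    fun v hv => by simp [hT, hv]⟩

/-- **The local norm index.** -/
theorem locNorms_index_eq (v : HeightOneSpectrum (𝓞 K)) :
    (locNorms L v).index = finIdx L v := by
  obtain ⟨T, hT, hcl, hclL, hram⟩ := exists_good_set (L := L) {v}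
  exact (norm_theorem_aux hσ T hcl hclL hram).1 v (hT (Finset.mem_singleton_self v))

/-- **The norm theorem of Hasse.** -/
theorem exists_norm_eq {a : Kˣ} (hloc : ∀ v, a ∈ locNorms L v)
    (hinf : ∀ w : InfinitePlace K, ¬ w.IsUnramifiedIn L →
      ∀ h : IsReal w, 0 < embedding_of_isReal h (a : K)) : ∃ x : Lˣ, normU' x = a := by
  obtain ⟨T, hT, hcl, hclL, hram⟩ := exists_good_set (L := L) (finite_ord_ne_zero a).toFinset
  exact (norm_theorem_aux hσ T hcl hclL hram).2 a
    (fun v hv => by_contra fun h => hv (hT ((finite_ord_ne_zero a).mem_toFinset.2 h)))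
    (fun v _ => hloc v) hinf

theorem norm_pos_of_ramified {w : InfinitePlace K} (hw : ¬ w.IsUnramifiedIn L) (h : IsReal w)
    (x : Lˣ) : 0 < embedding_of_isReal h (Algebra.norm K (x : L)) := by
  simp only [InfinitePlace.IsUnramifiedIn, not_forall] at hw
  obtain ⟨u, rfl, hu⟩ := hw
  exact norm_pos_of_isRamified hσ hu x

/-- **At an unramified prime the local norms are given by the order.** -/
theorem mem_locNorms_iff_dvd {v : HeightOneSpectrum (𝓞 K)} (hr : ¬ IsRam L v) {a : Kˣ} :
    a ∈ locNorms L v ↔ (fDeg L v : ℤ) ∣ ord v a := by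
  haveI : NeZero (fDeg L v) := ⟨fDeg_ne_zero v⟩
  let g : Kˣ →* Multiplicative (ZMod (fDeg L v)) :=
    MonoidHom.mk' (fun a => Multiplicative.ofAdd (ord v a : ZMod (fDeg L v))) fun a b => by
      rw [ord_mul, Int.cast_add, ofAdd_add]
  have hg : ∀ a, a ∈ g.ker ↔ (fDeg L v : ℤ) ∣ ord v a := fun a => by
    rw [MonoidHom.mem_ker, ← ZMod.intCast_zmod_eq_zero_iff_dvd]
    exact ⟨fun h => congrArg Multiplicative.toAdd h, fun h => congrArg Multiplicative.ofAdd h⟩
  have hidx : g.ker.index = fDeg L v := by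
    rw [Subgroup.index_ker, MonoidHom.range_eq_top.2 fun y => ?_,
      Nat.card_congr Subgroup.topEquiv.toEquiv, Nat.card_congr Multiplicative.toAdd,
      Nat.card_zmod]
    obtain ⟨j, hj⟩ := ZMod.intCast_surjective (Multiplicative.toAdd y)
    refine ⟨unif v ^ j, Multiplicative.toAdd.injective ?_⟩
    show ((ord v (unif v ^ j) : ℤ) : ZMod (fDeg L v)) = _
    rw [ord_zpow, ord_unif, mul_one, hj]
  have hle : locNorms L v ≤ g.ker := (iInf_le _ 0).trans (sup_le (by
    rintro _ ⟨x, rfl⟩
    exact (hg _).2 (by rw [ord_normU']; exact dvd_mul_right _ _)) fun c hc =>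
    (hg c).2 (by rw [ord_eq_zero_of_nearOne hc]; exact dvd_zero _))
  have h1 : (locNorms L v).relIndex g.ker = 1 := by
    have h2 := Subgroup.relIndex_mul_index hle
    rw [locNorms_index_eq hσ, finIdx_eq_fDeg hr, hidx] at h2
    exact Nat.eq_of_mul_eq_mul_right (Nat.pos_of_ne_zero (fDeg_ne_zero v))
      (by rw [one_mul]; exact h2)
  rw [← hg]
  exact ⟨fun h => hle h, fun h => Subgroup.relIndex_eq_one.1 h1 h⟩

end FA.HasseCyclic

end
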