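import Fermat.Agent.HasseNorm.Global

/-!
# Conics

`a x ^ 2 + b y ^ 2 = 1` asks whether `b` is a norm from `K(√a)`, so for conics the norm theorem is
the principle of Hasse.
-/

set_option autoImplicit false
set_option linter.unusedSectionVars false
set_option linter.style.haveILetI false

noncomputable section

universe u

open NumberField NumberField.InfinitePlace IsDedekindDomain Finset WithZero
open scoped Pointwise nonZeroDivisors Classical

namespace FA.HasseCyclic

open FA.ArtinRec

/-- A point of the conic makes `b` a value of `p ^ 2 - a q ^ 2`. -/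
theorem exists_form_eq {F : Type*} [Field F] (h2 : (2 : F) ≠ 0) {a b x y : F}
    (h : a * x ^ 2 + b * y ^ 2 = 1) : ∃ p q : F, p ^ 2 - a * q ^ 2 = b := by
  by_cases hy : y = 0
  · subst hy
    refine ⟨(1 + b) / 2, x * (b - 1) / 2, ?_⟩
    field_simp
    linear_combination (-(b - 1) ^ 2) * h
  · refine ⟨1 / y, x / y, ?_⟩
    field_simp
    linear_combination -h

/-- A value of `p ^ 2 - a q ^ 2` gives a point of the conic. -/
theorem exists_conic_point {F : Type*} [Field F] (h2 : (2 : F) ≠ 0) {a b p q : F} (ha : a ≠ 0)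
    (hb : b ≠ 0) (h : p ^ 2 - a * q ^ 2 = b) : ∃ x y : F, a * x ^ 2 + b * y ^ 2 = 1 := by
  by_cases hp : p = 0
  · subst hp
    have hq : q ≠ 0 := fun h0 => hb (by rw [← h, h0]; ring)
    refine ⟨(1 / a + 1) / 2, (1 / a - 1) / (2 * q), ?_⟩
    rw [← h]
    field_simp
    ring
  · refine ⟨q / p, 1 / p, ?_⟩
    field_simp
    linear_combination -h

variable {K : Type u} [Field K] [NumberField K]

/-- Approximation of a value of the form in a valued field. -/
theorem exists_dense_near {F Γ : Type*} [Field F] [LinearOrderedCommGroupWithZero Γ] [Valued F Γ]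
    {X : Type*} {ι : X → F} (hι : DenseRange ι) {a c d : F} (hc : c ≠ 0) (hd : d ≠ 0)
    {p₀ q₀ : F} (h : p₀ ^ 2 - a * q₀ ^ 2 = c) :
    ∃ p q : X, ι p ^ 2 - a * ι q ^ 2 ≠ 0 ∧
      Valued.v (c / (ι p ^ 2 - a * ι q ^ 2) - 1) < Valued.v d := by
  let f : F × F → F := fun z => z.1 ^ 2 - a * z.2 ^ 2
  have hf : Continuous f := by fun_prop
  have hg : ContinuousAt (fun z => c / f z - 1) (p₀, q₀) :=
    (continuousAt_const.div hf.continuousAt (h.trans_ne hc)).sub continuousAt_const
  set B : Set F := {z | (Valued.v (R := F)).restrict z < (Valued.v (R := F)).restrict d} with hB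
  have hBo : IsOpen B := Valued.isOpen_ball F _
  have h1 : c / f (p₀, q₀) - 1 ∈ B := by
    rw [show f (p₀, q₀) = c from h, div_self hc, sub_self, hB, Set.mem_ofPred_eq,
      Valuation.restrict_lt_iff, map_zero]
    exact zero_lt_iff.2 ((Valuation.ne_zero_iff _).2 hd)
  have hnhds : (fun z => c / f z - 1) ⁻¹' B ∩ {z | f z ≠ 0} ∈ nhds (p₀, q₀) :=
    Filter.inter_mem (hg.preimage_mem_nhds (hBo.mem_nhds h1))
      ((isOpen_ne_fun hf continuous_const).mem_nhds (h.trans_ne hc))
  obtain ⟨U, hUsub, hU, hmem⟩ := mem_nhds_iff.1 hnhds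
  obtain ⟨⟨p, q⟩, hp⟩ := (hι.prodMap hι).exists_mem_open hU ⟨_, hmem⟩
  obtain ⟨hb, hne⟩ := hUsub hp
  exact ⟨p, q, hne, (Valuation.restrict_lt_iff _).1 hb⟩

/-- Approximation of a point of the completion. -/
theorem exists_near_form (v : HeightOneSpectrum (𝓞 K)) (a : K) (b : Kˣ)
    (h : ∃ p q : v.adicCompletion K,
      p ^ 2 - algebraMap K (v.adicCompletion K) a * q ^ 2 = algebraMap K (v.adicCompletion K) b)
    (k : ℕ) :
    ∃ p q : K, p ^ 2 - a * q ^ 2 ≠ 0 ∧
      v.valuation K ((b : K) / (p ^ 2 - a * q ^ 2) - 1) ≤ exp (-(k : ℤ)) := by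
  obtain ⟨p₀, q₀, hpq⟩ := h
  obtain ⟨π, hπ⟩ := v.valuation_exists_uniformizer K
  have hπ0 : π ≠ 0 := fun h => exp_ne_zero (hπ.symm.trans (by rw [h, map_zero]))
  obtain ⟨p, q, hne, hlt⟩ := exists_dense_near (HeightOneSpectrum.denseRange_algebraMap K v)
    ((map_ne_zero _).2 b.ne_zero) (d := algebraMap K (v.adicCompletion K) (π ^ k))
    ((map_ne_zero _).2 (pow_ne_zero k hπ0)) hpq
  rw [← map_pow (algebraMap K (v.adicCompletion K)) p 2,
    ← map_pow (algebraMap K (v.adicCompletion K)) q 2, ← map_mul, ← map_sub] at hne hlt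
  refine ⟨p, q, fun h0 => hne (by rw [h0, map_zero]), ?_⟩
  rw [← map_div₀, ← map_one (algebraMap K (v.adicCompletion K)), ← map_sub] at hlt
  have hlt' : v.valuation K ((b : K) / (p ^ 2 - a * q ^ 2) - 1) < v.valuation K (π ^ k) :=
    ((v.valuedAdicCompletion_eq_valuation' _).symm.trans_lt hlt).trans_eq
      (v.valuedAdicCompletion_eq_valuation' _)
  rw [map_pow (v.valuation K), hπ, ← exp_nsmul] at hlt'
  exact hlt'.le.trans (le_of_eq (by simp))

section quadratic

variable {L : Type*} [Field L] [NumberField L] [Algebra K L] [IsGalois K L]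

/-- In a quadratic extension by a square root, norms are the values of the form. -/
theorem norm_quadratic (h2 : Module.finrank K L = 2) {a : K} {α : L}
    (hα : α ^ 2 = algebraMap K L a) (hnot : ∀ c : K, algebraMap K L c ≠ α) :
    (∀ p q : K, Algebra.norm K (algebraMap K L p + algebraMap K L q * α) = p ^ 2 - a * q ^ 2) ∧
      ∀ z : L, ∃ p q : K, z = algebraMap K L p + algebraMap K L q * α := by
  have hcard : Nat.card (L ≃ₐ[K] L) = 2 := (IsGalois.card_aut_eq_finrank K L).trans h2
  have hα0 : α ≠ 0 := fun h => hnot 0 (by rw [h, map_zero])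
  have hbot : ∀ z : L, (∀ g : L ≃ₐ[K] L, g z = z) → ∃ c : K, algebraMap K L c = z := fun z hz =>
    IntermediateField.mem_bot.1 ((IsGalois.mem_bot_iff_fixed z).2 hz)
  obtain ⟨σ, hσ⟩ : ∃ σ : L ≃ₐ[K] L, σ α ≠ α := by
    by_contra! h
    obtain ⟨c, hc⟩ := hbot α h
    exact hnot c hc
  have hσα : σ α = -α := by
    have h : σ α ^ 2 = α ^ 2 := by rw [← map_pow, hα, σ.commutes]
    rcases sq_eq_sq_iff_eq_or_eq_neg.1 h with h | h
    exacts [absurd h hσ, h]
  have hne : σ ≠ 1 := fun h => hσ (by rw [h]; rfl)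
  have huniv : (Finset.univ : Finset (L ≃ₐ[K] L)) = {1, σ} :=
    (Finset.eq_univ_of_card _ (by
      rw [Finset.card_pair hne.symm, Fintype.card_eq_nat_card, hcard])).symm
  refine ⟨fun p q => (algebraMap K L).injective ?_, fun z => ?_⟩
  · rw [Algebra.norm_eq_prod_automorphisms, huniv, Finset.prod_pair hne.symm, AlgEquiv.one_apply,
      map_add, map_mul, σ.commutes, σ.commutes, hσα, map_sub, map_mul, map_pow, map_pow, ← hα]
    ring
  · have hsq : σ (σ z) = z := by
      have h1 : σ * σ = 1 := by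
        have h1 := pow_card_eq_one' (x := σ)
        rwa [hcard, pow_two] at h1
      exact congrArg (fun g : L ≃ₐ[K] L => g z) h1
    obtain ⟨p, hp⟩ := hbot ((z + σ z) / 2) fun g => by
      rcases Finset.mem_insert.1 (huniv ▸ Finset.mem_univ g) with rfl | h
      · rfl
      · rw [Finset.mem_singleton.1 h, map_div₀, map_add, hsq, map_ofNat, add_comm]
    obtain ⟨q, hq⟩ := hbot ((z - σ z) / (2 * α)) fun g => by
      rcases Finset.mem_insert.1 (huniv ▸ Finset.mem_univ g) with rfl | h
      · rfl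
      · rw [Finset.mem_singleton.1 h, map_div₀, map_sub, hsq, map_mul, map_ofNat, hσα]
        field_simp
        ring
    refine ⟨p, q, ?_⟩
    rw [hp, hq]
    field_simp
    ring

/-- A real place where `a` is positive does not ramify in `K(√a)`. -/
theorem isUnramifiedIn_of_pos (h2 : Module.finrank K L = 2) {a : K} {α : L}
    (hα : α ^ 2 = algebraMap K L a) (hnot : ∀ c : K, algebraMap K L c ≠ α)
    {w : InfinitePlace K} (hw : IsReal w) (hpos : 0 < embedding_of_isReal hw a) :
    w.IsUnramifiedIn L := by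
  intro u hu
  subst hu
  refine InfinitePlace.isUnramified_iff.2 (Or.inl ?_)
  set φ := u.embedding.comp (algebraMap K L)
  have hmk : InfinitePlace.mk φ = u.comap (algebraMap K L) := by
    rw [← InfinitePlace.comap_mk, InfinitePlace.mk_embedding]
  have hφ : ComplexEmbedding.IsReal φ := InfinitePlace.isReal_of_mk_isReal (hmk ▸ hw)
  have hreal : ∀ c : K, φ c = (embedding_of_isReal hw c : ℂ) := fun c => by
    rw [embedding_of_isReal_apply, show (u.comap (algebraMap K L)).embedding = φ by
      rw [← hmk, InfinitePlace.embedding_mk_eq_of_isReal hφ]]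
  have hαr : starRingEnd ℂ (u.embedding α) = u.embedding α := by
    have hsq : u.embedding α ^ 2 = (embedding_of_isReal hw a : ℂ) := by
      rw [← map_pow, hα]; exact hreal a
    have h : u.embedding α = (Real.sqrt (embedding_of_isReal hw a) : ℂ) ∨
        u.embedding α = -(Real.sqrt (embedding_of_isReal hw a) : ℂ) := by
      refine sq_eq_sq_iff_eq_or_eq_neg.1 ?_
      rw [hsq, ← Complex.ofReal_pow, Real.sq_sqrt hpos.le]
    rcases h with h | h <;> simp [h]
  refine InfinitePlace.isReal_iff.2 (ComplexEmbedding.isReal_iff.2 (RingHom.ext fun z => ?_))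
  obtain ⟨p, q, rfl⟩ := (norm_quadratic h2 hα hnot).2 z
  have hfix : ∀ c : K, starRingEnd ℂ (u.embedding (algebraMap K L c)) =
      u.embedding (algebraMap K L c) := fun c => by
    rw [show u.embedding (algebraMap K L c) = (embedding_of_isReal hw c : ℂ) from hreal c]
    exact Complex.conj_ofReal _
  show starRingEnd ℂ (u.embedding _) = _
  simp only [map_add, map_mul, hfix, hαr]

end quadratic

/-- **The principle of Hasse for conics.** -/
theorem exists_conic_point_of_local {a b : K} (ha : a ≠ 0) (hb : b ≠ 0)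
    (hloc : ∀ v : HeightOneSpectrum (𝓞 K), ∃ x y : v.adicCompletion K,
      algebraMap K (v.adicCompletion K) a * x ^ 2 +
        algebraMap K (v.adicCompletion K) b * y ^ 2 = 1)
    (hreal : ∀ φ : K →+* ℝ, 0 < φ a ∨ 0 < φ b) :
    ∃ x y : K, a * x ^ 2 + b * y ^ 2 = 1 := by
  by_cases hsq : ∃ c : K, c ^ 2 = a
  · obtain ⟨c, rfl⟩ := hsq
    exact ⟨1 / c, 0, by field_simp [show c ≠ 0 by rintro rfl; simp at ha]; ring⟩
  obtain ⟨α, hα⟩ := IsAlgClosed.exists_pow_nat_eq (algebraMap K (AlgebraicClosure K) a)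
    (show 0 < 2 by norm_num)
  have hnot : ∀ c : K, algebraMap K (AlgebraicClosure K) c ≠ α := fun c hc => hsq ⟨c,
    (algebraMap K (AlgebraicClosure K)).injective (by rw [map_pow, hc, hα])⟩
  let F : IntermediateField K (AlgebraicClosure K) := IntermediateField.adjoin K {α}
  have hint : IsIntegral K α := (Algebra.IsAlgebraic.isAlgebraic α).isIntegral
  haveI : FiniteDimensional K F := IntermediateField.adjoin.finiteDimensional hint
  have h2 : Module.finrank K F = 2 := by
    rw [IntermediateField.adjoin.finrank hint]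
    refine le_antisymm ?_ ((minpoly.two_le_natDegree_iff hint).2 fun ⟨c, hc⟩ => hnot c hc)
    refine (Polynomial.natDegree_le_of_dvd (minpoly.dvd K α (p := Polynomial.X ^ 2 - Polynomial.C a)
      (by simp [hα])) (Polynomial.X_pow_sub_C_ne_zero two_pos a)).trans ?_
    rw [Polynomial.natDegree_X_pow_sub_C]
  haveI : NumberField F := NumberField.of_module_finite K F
  haveI : Algebra.IsQuadraticExtension K F := { finrank_eq_two' := h2 }
  haveI : IsGalois K F := inferInstance
  set β : F := IntermediateField.AdjoinSimple.gen K α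
  have hβ : β ^ 2 = algebraMap K F a := Subtype.ext (by
    show α ^ 2 = _
    exact hα)
  have hβnot : ∀ c : K, algebraMap K F c ≠ β := fun c hc =>
    hnot c (congrArg (fun z : F => (z : AlgebraicClosure K)) hc)
  obtain ⟨hnorm, hdec⟩ := norm_quadratic h2 hβ hβnot
  haveI : IsCyclic (F ≃ₐ[K] F) :=
    isCyclic_of_prime_card (p := 2) ((IsGalois.card_aut_eq_finrank K F).trans h2)
  obtain ⟨σ, hσ⟩ := IsCyclic.exists_generator (α := F ≃ₐ[K] F)
  obtain ⟨z, hz⟩ := exists_norm_eq (L := F) hσ (a := Units.mk0 b hb) (fun v => mem_locNorms.2 fun k => by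
    obtain ⟨x, y, hxy⟩ := hloc v
    obtain ⟨p, q, hpq0, hpq⟩ := exists_near_form v a (Units.mk0 b hb) (exists_form_eq (by
      rw [← map_ofNat (algebraMap K (v.adicCompletion K)) 2]
      exact (map_ne_zero _).2 two_ne_zero) hxy) k
    have hw : algebraMap K F p + algebraMap K F q * β ≠ 0 := fun h0 => hpq0 (by
      rw [← hnorm, h0, Algebra.norm_zero])
    refine ⟨Units.mk0 _ hw, ?_⟩
    simp only [Units.val_mk0, hnorm] at hpq ⊢
    exact hpq) fun w hw h => by
      rcases hreal (embedding_of_isReal h) with h1 | h1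
      · exact absurd (isUnramifiedIn_of_pos h2 hβ hβnot h h1) hw
      · exact h1
  obtain ⟨p, q, hpq⟩ := hdec (z : F)
  refine exists_conic_point two_ne_zero ha hb (p := p) (q := q) ?_
  rw [← hnorm, ← hpq]
  exact congrArg Units.val hz

end FA.HasseCyclic

end
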