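import Fermat.Agent.ArtinReciprocity.SecondInequality

/-!
# The local norms at a prime

The elements arbitrarily close to norms form a subgroup of finite index: the elements sufficiently
close to `1` are `n`-th powers up to elements as close as one likes, `n` the degree.
-/

set_option autoImplicit false
set_option linter.unusedSectionVars false
set_option linter.style.haveILetI false

noncomputable section

open NumberField IsDedekindDomain Finset WithZero
open scoped Pointwise nonZeroDivisors Classical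

namespace FA.HasseCyclic

open FA.ArtinRec

variable {K L : Type*} [Field K] [NumberField K] [Field L] [NumberField L] [Algebra K L]

theorem valuation_natCast (v : HeightOneSpectrum (𝓞 K)) (n : ℕ) : v.valuation K (n : K) ≤ 1 := by
  rw [← map_natCast (algebraMap (𝓞 K) K)]
  exact v.valuation_le_one _

theorem valuation_eq_one_of_near {v : HeightOneSpectrum (𝓞 K)} {x : K} {k : ℕ}
    (h : v.valuation K (x - 1) ≤ exp (-((k + 1 : ℕ) : ℤ))) : v.valuation K x = 1 := by
  have h1 : v.valuation K (x - 1) < v.valuation K 1 := by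
    rw [map_one, ← exp_zero]
    exact h.trans_lt (exp_lt_exp.2 (by omega))
  have h2 := (v.valuation K).map_add_eq_of_lt_right h1
  rwa [sub_add_cancel, map_one] at h2

/-- The elements congruent to `1` to the exponent `k + 1`. -/
def nearOne (v : HeightOneSpectrum (𝓞 K)) (k : ℕ) : Subgroup Kˣ where
  carrier := {a | v.valuation K ((a : K) - 1) ≤ exp (-((k + 1 : ℕ) : ℤ))}
  one_mem' := by simp
  mul_mem' {a b} ha hb := by
    show v.valuation K (((a * b : Kˣ) : K) - 1) ≤ _
    rw [Units.val_mul, show (a : K) * b - 1 = (a : K) * ((b : K) - 1) + ((a : K) - 1) by ring]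
    refine Valuation.map_add_le _ ?_ ha
    rw [map_mul, valuation_eq_one_of_near ha, one_mul]
    exact hb
  inv_mem' {a} ha := by
    show v.valuation K (((a⁻¹ : Kˣ) : K) - 1) ≤ _
    rw [Units.val_inv_eq_inv_val,
      show (a : K)⁻¹ - 1 = -((a : K)⁻¹ * ((a : K) - 1)) by field_simp; ring,
      Valuation.map_neg, map_mul, map_inv₀, valuation_eq_one_of_near ha, inv_one, one_mul]
    exact ha

theorem mem_nearOne {v : HeightOneSpectrum (𝓞 K)} {k : ℕ} {a : Kˣ} :
    a ∈ nearOne v k ↔ v.valuation K ((a : K) - 1) ≤ exp (-((k + 1 : ℕ) : ℤ)) := Iff.rfl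

theorem nearOne_anti (v : HeightOneSpectrum (𝓞 K)) {j k : ℕ} (h : j ≤ k) :
    nearOne v k ≤ nearOne v j := fun _ ha =>
  (mem_nearOne.1 ha).trans (exp_le_exp.2 (by omega))

theorem ord_eq_zero_of_nearOne {v : HeightOneSpectrum (𝓞 K)} {k : ℕ} {a : Kˣ}
    (ha : a ∈ nearOne v k) : ord v a = 0 :=
  ord_eq_zero_of_near k.succ_pos ha

variable (L) in
/-- **The local norms**: norms times elements arbitrarily close to `1`. -/
def locNorms (v : HeightOneSpectrum (𝓞 K)) : Subgroup Kˣ :=
  ⨅ k, (normU' (K := K) (L := L)).range ⊔ nearOne v k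

theorem normU'_mem_locNorms (v : HeightOneSpectrum (𝓞 K)) (x : Lˣ) : normU' x ∈ locNorms L v :=
  Subgroup.mem_iInf.2 fun _ => Subgroup.mem_sup_left ⟨x, rfl⟩

theorem mem_locNorms {v : HeightOneSpectrum (𝓞 K)} {a : Kˣ} :
    a ∈ locNorms L v ↔
      ∀ k : ℕ, ∃ x : Lˣ, v.valuation K ((a : K) / Algebra.norm K (x : L) - 1) ≤ exp (-(k : ℤ)) := by
  rw [locNorms, Subgroup.mem_iInf]
  constructor
  · intro h k
    obtain ⟨_, ⟨x, rfl⟩, c, hc, he⟩ := Subgroup.mem_sup.1 (h k)
    refine ⟨x, le_trans (le_of_eq ?_) ((mem_nearOne.1 hc).trans (exp_le_exp.2 (by omega)))⟩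
    rw [← he, Units.val_mul, show ((normU' x : Kˣ) : K) = Algebra.norm K (x : L) from rfl,
      mul_div_cancel_left₀ _ (by simp)]
  · intro h k
    obtain ⟨x, hx⟩ := h (k + 1)
    refine Subgroup.mem_sup.2 ⟨normU' x, ⟨x, rfl⟩, a / normU' x, ?_, mul_div_cancel _ _⟩
    rw [mem_nearOne, Units.val_div_eq_div_val]
    exact hx

/-- The second order term of a power. -/
theorem exists_pow_expand (v : HeightOneSpectrum (𝓞 K)) {t : K} (ht : v.valuation K t ≤ 1) :
    ∀ n : ℕ, ∃ s : K, v.valuation K s ≤ 1 ∧ (1 + t) ^ n = 1 + n * t + t ^ 2 * s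
  | 0 => ⟨0, by simp, by simp⟩
  | n + 1 => by
    obtain ⟨s, hs, he⟩ := exists_pow_expand v ht n
    refine ⟨n + s + t * s, Valuation.map_add_le _ (Valuation.map_add_le _ (valuation_natCast v n) hs)
      ?_, ?_⟩
    · rw [map_mul]
      exact mul_le_one₀ ht zero_le hs
    · rw [pow_succ, he]
      push_cast
      ring

/-- **Close to `1` is a power up to closer.** -/
theorem exists_pow_step (v : HeightOneSpectrum (𝓞 K)) {n : ℕ} (hn : n ≠ 0) :
    ∃ k₀ : ℕ, ∀ k, k₀ ≤ k → ∀ a ∈ nearOne v k, ∃ b : Kˣ, a / b ^ n ∈ nearOne v (k + 1) := by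
  set m : Kˣ := Units.mk0 (n : K) (Nat.cast_ne_zero.2 hn)
  have hm : v.valuation K (n : K) = exp (-ord v m) := valuation_eq_exp v m
  have he : 0 ≤ ord v m := by
    have h := valuation_natCast v n
    rw [hm, ← exp_zero, exp_le_exp] at h
    omega
  refine ⟨2 * (ord v m).toNat + 1, fun k hk a ha => ?_⟩
  set t : K := ((a : K) - 1) / n with htdef
  have ht : v.valuation K t ≤ exp (-((k + 1 : ℤ) - ord v m)) := by
    rw [htdef, map_div₀, hm, div_le_iff₀ (exp_pos), ← exp_add]
    exact (mem_nearOne.1 ha).trans (exp_le_exp.2 (by push_cast; omega))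
  have htlt : v.valuation K t < 1 := ht.trans_lt (by rw [← exp_zero, exp_lt_exp]; omega)
  have ht1 : v.valuation K (1 + t) = 1 := by
    rw [(v.valuation K).map_add_eq_of_lt_left (by rwa [map_one]), map_one]
  obtain ⟨s, hs, hexp⟩ := exists_pow_expand v htlt.le n
  have hb : (1 + t) ≠ 0 := fun h => by simp [h] at ht1
  refine ⟨Units.mk0 _ hb, mem_nearOne.2 ?_⟩
  rw [Units.val_div_eq_div_val, Units.val_pow_eq_pow_val, Units.val_mk0]
  have hp : ((1 + t) ^ n) ≠ 0 := pow_ne_zero _ hb
  rw [div_sub_one hp, map_div₀, map_pow, ht1, one_pow, div_one, hexp, htdef,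
    mul_div_cancel₀ _ (Nat.cast_ne_zero.2 hn), ← htdef,
    show (a : K) - (1 + ((a : K) - 1) + t ^ 2 * s) = -(t ^ 2 * s) by ring, Valuation.map_neg,
    map_mul, map_pow]
  refine (mul_le_of_le_one_right zero_le hs).trans ((pow_le_pow_left₀ zero_le ht 2).trans ?_)
  rw [← exp_nsmul]
  exact exp_le_exp.2 (by simp only [nsmul_eq_mul]; push_cast; omega)

/-- **Close to `1` is a local norm.** -/
theorem exists_nearOne_le_locNorms (v : HeightOneSpectrum (𝓞 K)) :
    ∃ k₀ : ℕ, nearOne v k₀ ≤ locNorms L v := by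
  obtain ⟨k₀, hk₀⟩ := exists_pow_step v (Module.finrank_pos (R := K) (M := L)).ne'
  refine ⟨k₀, fun a ha => Subgroup.mem_iInf.2 fun j => ?_⟩
  have key : ∀ i, a ∈ (normU' (K := K) (L := L)).range ⊔ nearOne v (k₀ + i) := fun i => by
    induction i with
    | zero => exact Subgroup.mem_sup_right ha
    | succ i ih =>
      obtain ⟨N, hN, c, hc, rfl⟩ := Subgroup.mem_sup.1 ih
      obtain ⟨b, hb⟩ := hk₀ _ (by omega) c hc
      refine Subgroup.mem_sup.2 ⟨N * b ^ Module.finrank K L, mul_mem hN ⟨baseU b, ?_⟩, _, hb, ?_⟩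
      · exact Units.ext (Algebra.norm_algebraMap (b : K))
      · rw [mul_assoc, mul_div_cancel]
  exact sup_le_sup_left (nearOne_anti v (by omega : j ≤ k₀ + j)) _ (key j)

/-- An element of order `0` is congruent to an integer. -/
theorem exists_integer_near (v : HeightOneSpectrum (𝓞 K)) {a : Kˣ} (ha : ord v a = 0) (k : ℕ) :
    ∃ r : 𝓞 K, ∀ r' : 𝓞 K, r' - r ∈ v.asIdeal ^ (k + 1) →
      ∃ h : r' ≠ 0, intU r' h / a ∈ nearOne v k := by
  have hav : v.valuation K (a : K) = 1 := by rw [valuation_eq_exp, ha, neg_zero, exp_zero]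
  obtain ⟨s, b, hs, hb⟩ := exists_clear (K := K) (L := K) (v := v) (z := (a : K)) fun Q hQ => by
    rw [show Q = v from HeightOneSpectrum.ext
      ((Ideal.comap_id Q.asIdeal).symm.trans (congrArg HeightOneSpectrum.asIdeal hQ)), hav]
  have hcop : Ideal.span {s} ⊔ v.asIdeal ^ (k + 1) = ⊤ :=
    Ideal.sup_pow_eq_top (by
      refine v.isMaximal.out.2 _ (lt_of_le_of_ne le_sup_right fun he => hs ?_)
      rw [he]
      exact Ideal.mem_sup_left (Ideal.mem_span_singleton_self s))
  obtain ⟨p, hp, q, hq, hpq⟩ := Submodule.mem_sup.1 ((Ideal.eq_top_iff_one _).1 hcop)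
  obtain ⟨s', rfl⟩ := Ideal.mem_span_singleton.1 hp
  refine ⟨b * s', fun r' hr' => ?_⟩
  have hint : ∀ x ∈ v.asIdeal ^ (k + 1), v.valuation K (x : K) ≤ exp (-((k + 1 : ℕ) : ℤ)) :=
    fun x hx => (v.valuation_of_algebraMap x).le.trans ((v.intValuation_le_pow_iff_mem _ _).2 hx)
  have hsq : (s : K) * s' + q = 1 := by exact_mod_cast congrArg (fun x : 𝓞 K => (x : K)) hpq
  have hd : v.valuation K ((r' : K) - a) ≤ exp (-((k + 1 : ℕ) : ℤ)) := by
    rw [show (r' : K) - a = ((r' : K) - ((b * s' : 𝓞 K) : K)) + -((a : K) * q) by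
      have hb' : (b : K) = (s : K) * a := hb.symm
      push_cast
      linear_combination (a : K) * hsq + (s' : K) * hb']
    refine Valuation.map_add_le _ ?_ ?_
    · rw [← map_sub]
      exact hint _ hr'
    · rw [Valuation.map_neg, map_mul, hav, one_mul]
      exact hint q hq
  have h0 : r' ≠ 0 := fun h => by
    rw [h, show ((0 : 𝓞 K) : K) = 0 from rfl, zero_sub, Valuation.map_neg, hav, ← exp_zero, exp_le_exp] at hd
    omega
  refine ⟨h0, mem_nearOne.2 ?_⟩
  rw [Units.val_div_eq_div_val, intU_val, div_sub_one a.ne_zero, map_div₀, hav, div_one]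
  exact hd

/-- **The local norms have finite index.** -/
theorem locNorms_index_ne_zero (v : HeightOneSpectrum (𝓞 K)) : (locNorms L v).index ≠ 0 := by
  obtain ⟨k₀, hk₀⟩ := exists_nearOne_le_locNorms (L := L) v
  set n := Module.finrank K L
  have hn : 0 < n := Module.finrank_pos
  haveI : Finite (𝓞 K ⧸ v.asIdeal ^ (k₀ + 1)) :=
    Ideal.finiteQuotientOfFreeOfNeBot _ (pow_ne_zero _ v.ne_bot)
  have : Finite (Kˣ ⧸ locNorms L v) := Finite.of_surjective
    (fun p : Fin n × (𝓞 K ⧸ v.asIdeal ^ (k₀ + 1)) =>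
      (QuotientGroup.mk (unif v ^ (p.1 : ℕ) *
        if h : Quotient.out p.2 = 0 then 1 else intU (Quotient.out p.2) h) : Kˣ ⧸ locNorms L v))
    fun c => by
      obtain ⟨a, rfl⟩ := QuotientGroup.mk_surjective c
      obtain ⟨q, i, hi, hq⟩ : ∃ (q : ℤ) (i : ℕ), i < n ∧ ord v a = (n : ℤ) * q + i := by
        refine ⟨ord v a / n, (ord v a % n).toNat, ?_, ?_⟩
        · have := Int.emod_lt_of_pos (ord v a) (show (0 : ℤ) < n by omega)
          omega
        · rw [Int.toNat_of_nonneg (Int.emod_nonneg _ (by omega)), Int.mul_ediv_add_emod]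
      set P : Kˣ := (unif v ^ q) ^ n with hP
      have hP' : P ∈ locNorms L v := by
        have : normU' (L := L) (baseU (unif v ^ q)) = P := Units.ext (Algebra.norm_algebraMap _)
        exact this ▸ normU'_mem_locNorms v _
      have h0 : ord v (a / (unif v ^ i * P)) = 0 := by
        rw [ord_div, ord_mul, ord_pow, hP, ord_pow, ord_zpow, ord_unif, hq]
        ring
      obtain ⟨r, hr⟩ := exists_integer_near v h0 k₀
      obtain ⟨h, hmem⟩ := hr (Quotient.out (Ideal.Quotient.mk (v.asIdeal ^ (k₀ + 1)) r))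
        (Ideal.Quotient.eq.1 (Ideal.Quotient.mk_out _))
      refine ⟨(⟨i, hi⟩, Ideal.Quotient.mk _ r), QuotientGroup.eq.2 ?_⟩
      simp only [dif_neg h]
      have he : (unif v ^ i * intU _ h)⁻¹ * a =
          (intU _ h / (a / (unif v ^ i * P)))⁻¹ * P := by
        refine Units.ext ?_
        simp only [Units.val_mul, Units.val_inv_eq_inv_val, Units.val_div_eq_div_val]
        field_simp
      rw [he]
      exact mul_mem (inv_mem (hk₀ hmem)) hP'
  exact Subgroup.index_ne_zero_of_finite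

end FA.HasseCyclic

end
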